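import Fermat.Agent.GAL.EigenChar.Chi
import Fermat.Agent.GAL.Sup.Defs

/-!
# Project GAL, eigen-characters: bridge to the SUPPORT interface (`Sup/Defs.lean`)
-/

set_option autoImplicit false

open CongruenceSubgroup ModularCurve ModularForm
open scoped MatrixGroups
open Matrix.SpecialLinearGroup (mapGL)
open P2MW.S_ModularForm_heckeT_slash_eq_self_of_mem_Gamma0.ModularForm.HeckeSlashInvariance

namespace Fermat.Agent.GAL.EigenChar

noncomputable section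

/-- Cayley-Hamilton for `SL(2, ℤ)`. -/
theorem sl2_sq (g : SL(2, ℤ)) :
    ((g * g : SL(2, ℤ)) : Matrix (Fin 2) (Fin 2) ℤ) =
      (g 0 0 + g 1 1) • (g : Matrix (Fin 2) (Fin 2) ℤ) - 1 := by
  have hdet : g 0 0 * g 1 1 - g 0 1 * g 1 0 = 1 := by
    have := g.det_coe
    rwa [Matrix.det_fin_two] at this
  ext i j
  rw [Matrix.SpecialLinearGroup.coe_mul, Matrix.mul_apply, Fin.sum_univ_two, Matrix.sub_apply,
    Matrix.smul_apply, smul_eq_mul]
  fin_cases i <;> fin_cases j <;> simp <;>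
    first | linear_combination -hdet | linear_combination (0 : ℤ) * hdet

/-- An element of `SL(2, ℤ)` with `|trace| ≤ 1` has finite order. -/
theorem sl2_pow_twelve_of_abs_trace_le_one (g : SL(2, ℤ)) (h : |g 0 0 + g 1 1| ≤ 1) :
    g ^ 12 = 1 := by
  have hsq := sl2_sq g
  obtain ⟨t, ht0⟩ : ∃ t : ℤ, t = g 0 0 + g 1 1 := ⟨_, rfl⟩
  rw [← ht0] at h hsq
  obtain ⟨M, hM⟩ : ∃ M : Matrix (Fin 2) (Fin 2) ℤ, M = (g : Matrix (Fin 2) (Fin 2) ℤ) := ⟨_, rfl⟩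
  have hMM : M * M = t • M - 1 := by
    rw [hM, ← hsq, Matrix.SpecialLinearGroup.coe_mul]
  apply Subtype.ext
  rw [Matrix.SpecialLinearGroup.coe_pow, Matrix.SpecialLinearGroup.coe_one, ← hM]
  have ht : t = 0 ∨ t = 1 ∨ t = -1 := by
    rw [abs_le] at h
    omega
  rcases ht with ht | ht | ht
  · rw [ht, zero_smul, zero_sub] at hMM
    have : M ^ 12 = (M * M) ^ 6 := by rw [← pow_two, ← pow_mul]
    rw [this, hMM]
    exact Even.neg_one_pow (by decide)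
  · rw [ht, one_smul] at hMM
    have h3 : M * M * M = -1 := by
      rw [hMM, sub_mul, one_mul, hMM]
      abel
    have : M ^ 12 = (M * M * M) ^ 4 := by rw [← pow_two, ← pow_succ, ← pow_mul]
    rw [this, h3]
    exact Even.neg_one_pow (by decide)
  · rw [ht, neg_one_smul] at hMM
    have h3 : M * M * M = 1 := by
      rw [hMM, sub_mul, one_mul, neg_mul, hMM]
      abel
    have : M ^ 12 = (M * M * M) ^ 4 := by rw [← pow_two, ← pow_succ, ← pow_mul]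
    rw [this, h3, one_pow]

theorem trace_sq_or_pow_of_isSmall {N : ℕ} {γ : Gamma0 N} (h : IsSmall γ) :
    ((γ : SL(2, ℤ)) : Matrix (Fin 2) (Fin 2) ℤ).trace ^ 2 = 4 ∨ γ ^ 12 = 1 := by
  unfold IsSmall at h
  by_cases h1 : |(γ : SL(2, ℤ)) 0 0 + (γ : SL(2, ℤ)) 1 1| ≤ 1
  · right
    apply Subtype.ext
    rw [Subgroup.coe_pow, Subgroup.coe_one]
    exact sl2_pow_twelve_of_abs_trace_le_one _ h1
  · left
    rw [Matrix.trace_fin_two]
    have h2 : |(γ : SL(2, ℤ)) 0 0 + (γ : SL(2, ℤ)) 1 1| = 2 := by omega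
    rw [← sq_abs]
    change |(γ : SL(2, ℤ)) 0 0 + (γ : SL(2, ℤ)) 1 1| ^ 2 = 4
    rw [h2]
    norm_num

variable {N : ℕ} [NeZero N]

theorem per_eq_zero_of_isSmall {γ : Gamma0 N} (h : IsSmall γ) : per γ = 0 := by
  rcases trace_sq_or_pow_of_isSmall h with h | h
  · exact per_eq_zero_of_trace h
  · exact per_eq_zero_of_isOfFinOrder (isOfFinOrder_iff_pow_eq_one.mpr ⟨12, by norm_num, h⟩)

theorem perL_eq_zero_of_isSmall {γ : Gamma0 N} (h : IsSmall γ) : perL γ = 0 :=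
  Subtype.ext (per_eq_zero_of_isSmall h)

theorem PerChar.eval_eq_zero_of_isSmall {A : Type*} [AddCommGroup A] (ψ : PerChar N A)
    {γ : Gamma0 N} (h : IsSmall γ) : ψ.eval γ = 0 := by
  unfold PerChar.eval
  rw [perL_eq_zero_of_isSmall h, map_zero]

/-- The characters factoring through the period lattice are good. -/
def PerChar.toGoodHom (m : ℕ) : PerChar N (ZMod m) →+ GoodHom N m where
  toFun ψ := ⟨PerChar.toHom ψ, fun _ hγ => ψ.eval_eq_zero_of_isSmall hγ⟩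
  map_zero' := rfl
  map_add' _ _ := rfl

@[simp] theorem PerChar.coe_toGoodHom (m : ℕ) (ψ : PerChar N (ZMod m)) :
    (PerChar.toGoodHom m ψ : Additive (Gamma0 N) →+ ZMod m) = PerChar.toHom ψ := rfl

theorem PerChar.toGoodHom_injective (m : ℕ) :
    Function.Injective (PerChar.toGoodHom (N := N) m) := by
  intro ψ ψ' h
  exact PerChar.toHom_injective (congrArg Subtype.val h)

/-- The Hecke action on `PerChar` is the transfer. -/
theorem PerChar.isTransfer {m : ℕ} {ℓ : Nat.Primes} (hℓN : ¬ (ℓ : ℕ) ∣ N)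
    (ψ : PerChar N (ZMod m)) :
    haveI : NeZero (ℓ : ℕ) := ⟨ℓ.2.ne_zero⟩
    IsTransfer (ℓ : ℕ) (PerChar.toHom ψ) (PerChar.toHom (heckeGen ℓ • ψ)) := by
  intro γ σ d hd
  exact PerChar.heckeGen_smul_eval_of_not_dvd hℓN ψ γ σ d hd

theorem chiOf_toHom {m : ℕ} [NeZero m] (ψ : PerChar N (ZMod m)) :
    chiOf (PerChar.toHom ψ) = chi ψ := rfl

/-- Transfer formula for the action of `heckeAlgebra N 2 S` on the period lattice. -/
theorem latAct_T_perL {S : Set ℕ} {ℓ : ℕ} (hℓ : ℓ.Prime) (hℓN : ¬ ℓ ∣ N) (hℓS : ℓ ∉ S)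
    (γ : Gamma0 N) (σ : Equiv.Perm (OnePoint (ZMod ℓ))) (d : OnePoint (ZMod ℓ) → Gamma0 N)
    (h : ∀ x : OnePoint (ZMod ℓ), heckeRep ℓ x * mapGL ℝ (γ : SL(2, ℤ)) =
      mapGL ℝ (d x : SL(2, ℤ)) * heckeRep ℓ (σ x)) :
    haveI : NeZero ℓ := ⟨hℓ.ne_zero⟩
    latAct N S (CuspForm.heckeAlgebra.T hℓ hℓN hℓS) (perL γ) = ∑ x, perL (d x) := by
  have : NeZero ℓ := ⟨hℓ.ne_zero⟩
  apply Subtype.ext
  rw [AddSubmonoidClass.coe_finsetSum, coe_latAct_apply]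
  exact per_comp_heckeT hℓ hℓN γ σ d h

/-- **[EIG]** the `k`-valued eigen-character of a ring homomorphism `θ : 𝕋 → k`. -/
theorem exists_eigenChar_of_ringHom {p : ℕ} (hp : p.Prime) {k : Type*} [Field k] [CharP k p]
    {S : Set ℕ} (θ : CuspForm.heckeAlgebra N 2 S →+* k) :
    ∃ c : Additive (Gamma0 N) →+ k, c ≠ 0 ∧ (∀ γ : Gamma0 N, IsSmall γ → c (Additive.ofMul γ) = 0) ∧
      ∀ (ℓ : ℕ) (hℓ : ℓ.Prime) (hℓN : ¬ ℓ ∣ N) (hℓS : ℓ ∉ S) (γ : Gamma0 N)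
        (σ : Equiv.Perm (OnePoint (ZMod ℓ))) (d : OnePoint (ZMod ℓ) → Gamma0 N),
        (∀ x, heckeRep ℓ x * mapGL ℝ (γ : SL(2, ℤ)) =
          mapGL ℝ (d x : SL(2, ℤ)) * heckeRep ℓ (σ x)) →
        haveI : NeZero ℓ := ⟨hℓ.ne_zero⟩
        ∑ x, c (Additive.ofMul (d x)) =
          θ (CuspForm.heckeAlgebra.T hℓ hℓN hℓS) * c (Additive.ofMul γ) := by
  have : Fact p.Prime := ⟨hp⟩
  have hfinT := S22.result N 2 S
  let _ : Module (CuspForm.heckeAlgebra N 2 S) (perLat N) := Module.compHom _ (latAct N S)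
  have hfin : Module.Finite (CuspForm.heckeAlgebra N 2 S) (perLat N) :=
    Module.Finite.of_restrictScalars_finite ℤ _ _
  obtain ⟨ψ, hψ, h⟩ := exists_eigen_functional (R := CuspForm.heckeAlgebra N 2 S)
    (M := perLat N) θ (isMaximal_ker_of_finite p θ) (fun t ht => latAct_faithful S t ht)
  refine ⟨PerChar.toHom (PerChar.mk ψ), ?_, ?_, ?_⟩
  · intro h0
    apply hψ
    have : PerChar.mk ψ = 0 := PerChar.toHom_injective (by rw [h0, map_zero])
    exact this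
  · intro γ hγ
    exact (PerChar.mk ψ).eval_eq_zero_of_isSmall hγ
  · intro ℓ hℓ hℓN hℓS γ σ d hd
    have : NeZero ℓ := ⟨hℓ.ne_zero⟩
    have h1 := h (CuspForm.heckeAlgebra.T hℓ hℓN hℓS) (perL γ)
    have h2 : (CuspForm.heckeAlgebra.T hℓ hℓN hℓS : CuspForm.heckeAlgebra N 2 S) • perL γ =
        ∑ x, perL (d x) := latAct_T_perL hℓ hℓN hℓS γ σ d hd
    rw [h2, map_sum] at h1
    exact h1

/-- **[EIG]** the `k`-valued eigen-character of a normalised eigenform. -/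
theorem exists_eigenChar {g : CuspForm (Gamma0 N) 2} (hg : g.IsNormalizedEigenform)
    {p : ℕ} (hp : p.Prime) {k : Type*} [Field k] [CharP k p] (φ : integralClosure ℤ ℂ →+* k) :
    ∃ c : Additive (Gamma0 N) →+ k, c ≠ 0 ∧ (∀ γ : Gamma0 N, IsSmall γ → c (Additive.ofMul γ) = 0) ∧
      ∀ (ℓ : Nat.Primes), ¬ (ℓ : ℕ) ∣ N → ∀ (γ : Gamma0 N)
        (σ : Equiv.Perm (OnePoint (ZMod ℓ))) (d : OnePoint (ZMod ℓ) → Gamma0 N),
        (∀ x, heckeRep ℓ x * mapGL ℝ (γ : SL(2, ℤ)) =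
          mapGL ℝ (d x : SL(2, ℤ)) * heckeRep ℓ (σ x)) →
        haveI : NeZero (ℓ : ℕ) := ⟨ℓ.2.ne_zero⟩
        ∑ x, c (Additive.ofMul (d x)) = φ (eigenCoeff hg ℓ) * c (Additive.ofMul γ) := by
  obtain ⟨c, hc0, hsmall, h⟩ := exists_eigenChar_of_ringHom hp (φ.comp (eigenHomInt hg ∅))
  refine ⟨c, hc0, hsmall, fun ℓ hℓN γ σ d hd => ?_⟩
  rw [h ℓ ℓ.2 hℓN (Set.notMem_empty _) γ σ d hd]
  unfold eigenCoeff
  rw [CuspForm.heckeFormsGen_of_not_dvd hℓN]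
  rfl

end

end Fermat.Agent.GAL.EigenChar
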