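import Fermat.Agent.GAL.EigenChar.Main

/-!
# Project GAL, eigen-characters: the `μ_m(ℂ)`-valued shape
-/

set_option autoImplicit false

open CongruenceSubgroup ModularCurve ModularForm
open scoped MatrixGroups
open Matrix.SpecialLinearGroup (mapGL)
open P2MW.S_ModularForm_heckeT_slash_eq_self_of_mem_Gamma0.ModularForm.HeckeSlashInvariance

namespace Fermat.Agent.GAL.EigenChar

noncomputable section

variable {N : ℕ} [NeZero N] {m : ℕ} [NeZero m]

/-- The `μ_m(ℂ)`-valued character `γ ↦ exp (2 π i ψ(γ) / m)`. -/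
def chi (ψ : PerChar N (ZMod m)) : Gamma0 N →* ℂˣ :=
  MonoidHom.toHomUnits
    { toFun := fun γ => ZMod.stdAddChar (ψ.eval γ)
      map_one' := by rw [PerChar.eval_one, AddChar.map_zero_eq_one]
      map_mul' := fun γ δ => by rw [PerChar.eval_mul, AddChar.map_add_eq_mul] }

theorem coe_chi_apply (ψ : PerChar N (ZMod m)) (γ : Gamma0 N) :
    (chi ψ γ : ℂ) = ZMod.stdAddChar (ψ.eval γ) := rfl

theorem chi_eq_one_of_eval {ψ : PerChar N (ZMod m)} {γ : Gamma0 N} (h : ψ.eval γ = 0) :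
    chi ψ γ = 1 := by
  apply Units.ext
  rw [coe_chi_apply, h, AddChar.map_zero_eq_one, Units.val_one]

theorem chi_apply_eq_one_iff (ψ : PerChar N (ZMod m)) (γ : Gamma0 N) :
    chi ψ γ = 1 ↔ ψ.eval γ = 0 := by
  refine ⟨fun h => ?_, chi_eq_one_of_eval⟩
  apply ZMod.injective_stdAddChar
  rw [← coe_chi_apply, h, AddChar.map_zero_eq_one, Units.val_one]

theorem chi_pow (ψ : PerChar N (ZMod m)) (γ : Gamma0 N) : chi ψ γ ^ m = 1 := by
  apply Units.ext
  rw [Units.val_pow_eq_pow_val, coe_chi_apply, ← AddChar.map_nsmul_eq_pow, Units.val_one]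
  have : m • ψ.eval γ = 0 := by
    rw [nsmul_eq_mul, ZMod.natCast_self, zero_mul]
  rw [this, AddChar.map_zero_eq_one]

@[simp] theorem chi_zero : chi (0 : PerChar N (ZMod m)) = 1 := by
  ext γ
  rw [coe_chi_apply, PerChar.eval_zero, AddChar.map_zero_eq_one]
  rfl

theorem chi_add (ψ ψ' : PerChar N (ZMod m)) : chi (ψ + ψ') = chi ψ * chi ψ' := by
  ext γ
  rw [MonoidHom.mul_apply, Units.val_mul, coe_chi_apply, coe_chi_apply, coe_chi_apply,
    PerChar.eval_add, AddChar.map_add_eq_mul]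

theorem chi_eq_one_iff (ψ : PerChar N (ZMod m)) : chi ψ = 1 ↔ ψ = 0 := by
  constructor
  · intro h
    ext γ
    rw [PerChar.eval_zero, ← chi_apply_eq_one_iff, h]
    rfl
  · rintro rfl
    exact chi_zero

theorem chi_injective : Function.Injective (chi (N := N) (m := m)) := by
  intro ψ ψ' h
  ext γ
  apply ZMod.injective_stdAddChar
  rw [← coe_chi_apply, ← coe_chi_apply, h]

theorem chi_of_trace (ψ : PerChar N (ZMod m)) {γ : Gamma0 N}
    (h : ((γ : SL(2, ℤ)) : Matrix (Fin 2) (Fin 2) ℤ).trace ^ 2 = 4) : chi ψ γ = 1 :=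
  chi_eq_one_of_eval (ψ.eval_eq_zero_of_trace h)

theorem chi_of_isOfFinOrder (ψ : PerChar N (ZMod m)) {γ : Gamma0 N} (h : IsOfFinOrder γ) :
    chi ψ γ = 1 :=
  chi_eq_one_of_eval (ψ.eval_eq_zero_of_isOfFinOrder h)

omit [NeZero N] in
theorem T_mem_Gamma0 : ModularGroup.T ∈ Gamma0 N := by
  rw [Gamma0_mem, ModularGroup.coe_T]
  simp

omit [NeZero N] in
theorem neg_one_mem_Gamma0 : (-1 : SL(2, ℤ)) ∈ Gamma0 N := by
  rw [Gamma0_mem]
  simp

theorem chi_T (ψ : PerChar N (ZMod m)) : chi ψ ⟨ModularGroup.T, T_mem_Gamma0⟩ = 1 := by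
  apply chi_of_trace
  rw [Matrix.trace_fin_two]
  simp [ModularGroup.coe_T]

theorem chi_neg_one (ψ : PerChar N (ZMod m)) : chi ψ ⟨-1, neg_one_mem_Gamma0⟩ = 1 := by
  apply chi_of_trace
  rw [Matrix.trace_fin_two]
  simp

theorem addChar_sum {ι B M : Type*} [AddCommMonoid B] [CommMonoid M] (e : AddChar B M)
    (s : Finset ι) (f : ι → B) : e (∑ i ∈ s, f i) = ∏ i ∈ s, e (f i) := by
  classical
  induction s using Finset.induction_on with
  | empty => simp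
  | insert a s ha ih => rw [Finset.sum_insert ha, Finset.prod_insert ha, AddChar.map_add_eq_mul, ih]

/-- **Transfer formula** for `T_ℓ`, `ℓ ∤ N`, multiplicative form. -/
theorem chi_heckeGen_smul_of_not_dvd {ℓ : Nat.Primes} (hℓN : ¬ (ℓ : ℕ) ∣ N)
    (ψ : PerChar N (ZMod m)) (γ : Gamma0 N)
    (σ : Equiv.Perm (OnePoint (ZMod ℓ))) (c : OnePoint (ZMod ℓ) → Gamma0 N)
    (h : ∀ x : OnePoint (ZMod ℓ), heckeRep ℓ x * mapGL ℝ (γ : SL(2, ℤ)) =
      mapGL ℝ (c x : SL(2, ℤ)) * heckeRep ℓ (σ x)) :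
    haveI : NeZero (ℓ : ℕ) := ⟨ℓ.2.ne_zero⟩
    chi (heckeGen ℓ • ψ) γ = ∏ x, chi ψ (c x) := by
  have : NeZero (ℓ : ℕ) := ⟨ℓ.2.ne_zero⟩
  apply Units.ext
  rw [coe_chi_apply, PerChar.heckeGen_smul_eval_of_not_dvd hℓN ψ γ σ c h, Units.coe_prod,
    addChar_sum]
  rfl

/-- **Transfer formula** for `U_q`, `q ∣ N`, multiplicative form. -/
theorem chi_heckeGen_smul_of_dvd {q : Nat.Primes} (hqN : (q : ℕ) ∣ N)
    (ψ : PerChar N (ZMod m)) (γ : Gamma0 N)
    (σ : Equiv.Perm (ZMod q)) (c : ZMod q → Gamma0 N)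
    (h : ∀ x : ZMod q, heckeMatrix q x.val * mapGL ℝ (γ : SL(2, ℤ)) =
      mapGL ℝ (c x : SL(2, ℤ)) * heckeMatrix q (σ x).val) :
    haveI : NeZero (q : ℕ) := ⟨q.2.ne_zero⟩
    chi (heckeGen q • ψ) γ = ∏ x, chi ψ (c x) := by
  have : NeZero (q : ℕ) := ⟨q.2.ne_zero⟩
  apply Units.ext
  rw [coe_chi_apply, PerChar.heckeGen_smul_eval_of_dvd hqN ψ γ σ c h, Units.coe_prod,
    addChar_sum]
  rfl

end

end Fermat.Agent.GAL.EigenChar
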