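import Mathlib
import Fermat.Agent.S49.QCoeff
import Fermat.Agent.S22
import Fermat.Prelude.Def_CuspForm_HeckeEvalForms
import Fermat.Prelude.Def_FLTPrelim_Modularity

/-!
# Project GAL, eigen-characters: a normalised eigenform is an eigenvector
-/

set_option autoImplicit false

open ModularFormClass CongruenceSubgroup ModularCurve

namespace Fermat.Agent.GAL.EigenChar

noncomputable section

variable {N : ℕ} {g : CuspForm (Gamma0 N) 2}

theorem qCoeff_mul_prime_of_not_dvd (hg : g.IsNormalizedEigenform) {p : ℕ} (hp : p.Prime)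
    (hpN : ¬ p ∣ N) (n : ℕ) :
    qCoeff g (n * p) + (if p ∣ n then (p : ℂ) * qCoeff g (n / p) else 0) =
      qCoeff g p * qCoeff g n := by
  rcases eq_or_ne n 0 with rfl | hn
  · simp [S49.qCoeff_zero_index]
  obtain ⟨e, m, hm, rfl⟩ := Nat.exists_eq_pow_mul_and_not_dvd hn p hp.ne_one
  have hcop : ∀ j, (p ^ j).Coprime m := fun j =>
    Nat.Coprime.pow_left j ((Nat.Prime.coprime_iff_not_dvd hp).mpr hm)
  cases e with
  | zero =>
    rw [pow_zero, one_mul, if_neg hm, add_zero, mul_comm m p]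
    have := hg.qCoeff_mul_of_coprime p m (by simpa using hcop 1)
    exact this
  | succ e =>
    have h1 : p ∣ p ^ (e + 1) * m := Dvd.dvd.mul_right (dvd_pow_self p (Nat.succ_ne_zero e)) m
    have h2 : p ^ (e + 1) * m / p = p ^ e * m := by
      rw [pow_succ, mul_assoc, mul_comm p m, ← mul_assoc]
      exact Nat.mul_div_cancel _ hp.pos
    have h3 : p ^ (e + 1) * m * p = p ^ (e + 2) * m := by ring
    rw [if_pos h1, h2, h3, hg.qCoeff_mul_of_coprime _ _ (hcop _),
      hg.qCoeff_mul_of_coprime _ _ (hcop _), hg.qCoeff_mul_of_coprime _ _ (hcop _),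
      hg.qCoeff_prime_pow_of_not_dvd p e hp hpN]
    ring

theorem qCoeff_mul_prime_of_dvd (hg : g.IsNormalizedEigenform) {p : ℕ} (hp : p.Prime)
    (hpN : p ∣ N) (n : ℕ) :
    qCoeff g (n * p) = qCoeff g p * qCoeff g n := by
  rcases eq_or_ne n 0 with rfl | hn
  · simp [S49.qCoeff_zero_index]
  obtain ⟨e, m, hm, rfl⟩ := Nat.exists_eq_pow_mul_and_not_dvd hn p hp.ne_one
  have hcop : ∀ j, (p ^ j).Coprime m := fun j =>
    Nat.Coprime.pow_left j ((Nat.Prime.coprime_iff_not_dvd hp).mpr hm)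
  cases e with
  | zero =>
    rw [pow_zero, one_mul, mul_comm m p]
    have := hg.qCoeff_mul_of_coprime p m (by simpa using hcop 1)
    exact this
  | succ e =>
    have h3 : p ^ (e + 1) * m * p = p ^ (e + 2) * m := by ring
    rw [h3, hg.qCoeff_mul_of_coprime _ _ (hcop _),
      hg.qCoeff_mul_of_coprime _ _ (hcop _),
      hg.qCoeff_prime_pow_of_dvd p e hp hpN]
    ring

theorem ext_qCoeff {f f' : CuspForm (Gamma0 N) 2} (h : ∀ n, qCoeff f n = qCoeff f' n) :
    f = f' := by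
  rw [← sub_eq_zero]
  apply S49.eq_zero_of_qCoeff
  intro n
  have h1 : f - f' = f + (-1 : ℂ) • f' := by
    rw [neg_smul, one_smul, sub_eq_add_neg]
  rw [h1, S49.qCoeff_add, S49.qCoeff_smul, h n]
  ring

theorem heckeTLin_eigen (hg : g.IsNormalizedEigenform) {p : ℕ} (hp : p.Prime) (hpN : ¬ p ∣ N) :
    CuspForm.heckeTLin 2 hp hpN g = qCoeff g p • g := by
  apply ext_qCoeff
  intro n
  rw [S49.qCoeff_heckeTLin, S49.qCoeff_smul, ← qCoeff_mul_prime_of_not_dvd hg hp hpN n]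
  norm_num

theorem heckeULin_eigen [NeZero N] (hg : g.IsNormalizedEigenform) {p : ℕ} (hp : p.Prime)
    (hpN : p ∣ N) :
    CuspForm.heckeULin 2 hpN g = qCoeff g p • g := by
  apply ext_qCoeff
  intro n
  rw [S49.qCoeff_heckeULin hp.ne_zero, S49.qCoeff_smul, ← qCoeff_mul_prime_of_dvd hg hp hpN n]

theorem ne_zero_of_eigen (hg : g.IsNormalizedEigenform) : g ≠ 0 := by
  rintro rfl
  have h1 := hg.qCoeff_one
  have h2 : qCoeff (⇑(0 : CuspForm (Gamma0 N) 2)) 1 = 0 := by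
    have := S49.qCoeff_smul (0 : ℂ) (0 : CuspForm (Gamma0 N) 2) 1
    rwa [zero_smul, zero_mul] at this
  rw [h2] at h1
  exact zero_ne_one h1

variable [NeZero N]

/-- every Hecke operator has `g` as an eigenvector. -/
theorem exists_eigenvalue (hg : g.IsNormalizedEigenform) {S : Set ℕ}
    {t : Module.End ℂ (CuspForm (Gamma0 N) 2)} (ht : t ∈ CuspForm.heckeAlgebra N 2 S) :
    ∃ c : ℂ, t g = c • g := by
  induction ht using Algebra.adjoin_induction with
  | mem x hx =>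
    rcases hx with ⟨ℓ, hℓ, hℓN, -, rfl⟩ | ⟨q, hqN, hq, -, rfl⟩
    · exact ⟨_, heckeTLin_eigen hg hℓ hℓN⟩
    · exact ⟨_, heckeULin_eigen hg hq hqN⟩
  | algebraMap r => exact ⟨r, by simp [Int.cast_smul_eq_zsmul]⟩
  | add x y _ _ hx hy =>
    obtain ⟨c, hc⟩ := hx
    obtain ⟨d, hd⟩ := hy
    exact ⟨c + d, by rw [LinearMap.add_apply, hc, hd, add_smul]⟩
  | mul x y _ _ hx hy =>
    obtain ⟨c, hc⟩ := hx
    obtain ⟨d, hd⟩ := hy
    exact ⟨d * c, by rw [Module.End.mul_apply, hd, map_smul, hc, smul_smul]⟩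

/-- The eigen-character of a normalised eigenform. -/
def eigenHom (hg : g.IsNormalizedEigenform) (S : Set ℕ) : CuspForm.heckeAlgebra N 2 S →+* ℂ where
  toFun t := qCoeff (t.1 g) 1
  map_one' := hg.qCoeff_one
  map_zero' := by
    have := S49.qCoeff_smul (0 : ℂ) (0 : CuspForm (Gamma0 N) 2) 1
    rwa [zero_smul, zero_mul] at this
  map_add' a b := S49.qCoeff_add _ _ _
  map_mul' a b := by
    obtain ⟨c, hc⟩ := exists_eigenvalue hg a.2
    obtain ⟨d, hd⟩ := exists_eigenvalue hg b.2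
    change qCoeff (a.1 (b.1 g)) 1 = _
    rw [hd, map_smul, hc, S49.qCoeff_smul, S49.qCoeff_smul, S49.qCoeff_smul, hg.qCoeff_one]
    ring

theorem eigenHom_spec (hg : g.IsNormalizedEigenform) (S : Set ℕ)
    (t : CuspForm.heckeAlgebra N 2 S) : t.1 g = eigenHom hg S t • g := by
  obtain ⟨c, hc⟩ := exists_eigenvalue hg t.2
  change t.1 g = qCoeff (t.1 g) 1 • g
  rw [hc, S49.qCoeff_smul, hg.qCoeff_one, mul_one]

theorem eigenHom_T (hg : g.IsNormalizedEigenform) {S : Set ℕ} {ℓ : ℕ} (hℓ : ℓ.Prime)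
    (hℓN : ¬ ℓ ∣ N) (hℓS : ℓ ∉ S) :
    eigenHom hg S (CuspForm.heckeAlgebra.T hℓ hℓN hℓS) = qCoeff g ℓ := by
  change qCoeff (CuspForm.heckeTLin 2 hℓ hℓN g) 1 = _
  rw [heckeTLin_eigen hg, S49.qCoeff_smul, hg.qCoeff_one, mul_one]

theorem eigenHom_U (hg : g.IsNormalizedEigenform) {S : Set ℕ} {q : ℕ} (hq : q.Prime)
    (hqN : q ∣ N) (hqS : q ∉ S) :
    eigenHom hg S (CuspForm.heckeAlgebra.U hq hqN hqS) = qCoeff g q := by
  change qCoeff (CuspForm.heckeULin 2 hqN g) 1 = _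
  rw [heckeULin_eigen hg hq, S49.qCoeff_smul, hg.qCoeff_one, mul_one]

theorem isIntegral_eigenHom (hg : g.IsNormalizedEigenform) (S : Set ℕ)
    (t : CuspForm.heckeAlgebra N 2 S) : IsIntegral ℤ (eigenHom hg S t) := by
  have := S22.result N 2 S
  exact map_isIntegral_int (eigenHom hg S) (Algebra.IsIntegral.isIntegral t)

/-- The eigen-character with values in the ring of algebraic integers. -/
def eigenHomInt (hg : g.IsNormalizedEigenform) (S : Set ℕ) :
    CuspForm.heckeAlgebra N 2 S →+* integralClosure ℤ ℂ :=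
  (eigenHom hg S).codRestrict (integralClosure ℤ ℂ) (isIntegral_eigenHom hg S)

@[simp] theorem coe_eigenHomInt (hg : g.IsNormalizedEigenform) (S : Set ℕ)
    (t : CuspForm.heckeAlgebra N 2 S) : (eigenHomInt hg S t : ℂ) = eigenHom hg S t := rfl

/-- The Fourier coefficients at primes, as algebraic integers. -/
def eigenCoeff (hg : g.IsNormalizedEigenform) (ℓ : Nat.Primes) : integralClosure ℤ ℂ :=
  eigenHomInt hg ∅ (CuspForm.heckeFormsGen N 2 ℓ)

theorem coe_eigenCoeff (hg : g.IsNormalizedEigenform) (ℓ : Nat.Primes) :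
    (eigenCoeff hg ℓ : ℂ) = qCoeff g ℓ := by
  unfold eigenCoeff
  rw [coe_eigenHomInt]
  by_cases h : (ℓ : ℕ) ∣ N
  · rw [CuspForm.heckeFormsGen_of_dvd h, eigenHom_U]
  · rw [CuspForm.heckeFormsGen_of_not_dvd h, eigenHom_T]

/-- The eigen-ideal is the kernel of the reduced eigen-character. -/
theorem mem_eigenIdeal_iff_eigenHomInt (hg : g.IsNormalizedEigenform) {k : Type*} [CommRing k]
    (φ : integralClosure ℤ ℂ →+* k) (t : HeckeAlg) :
    t ∈ eigenIdeal (fun ℓ => φ (eigenCoeff hg ℓ)) ↔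
      φ (eigenHomInt hg ∅ (CuspForm.heckeEvalForms N 2 t)) = 0 := by
  rw [mem_eigenIdeal_iff]
  have : (MvPolynomial.aeval (R := ℤ) fun ℓ => φ (eigenCoeff hg ℓ)) =
      ((φ.comp (eigenHomInt hg ∅)).comp (CuspForm.heckeEvalForms N 2)).toIntAlgHom := by
    apply MvPolynomial.algHom_ext
    intro ℓ
    rw [MvPolynomial.aeval_X]
    change _ = φ (eigenHomInt hg ∅ (CuspForm.heckeEvalForms N 2 (heckeGen ℓ)))
    rw [CuspForm.heckeEvalForms_heckeGen]
    rfl
  rw [this]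
  rfl

end

end Fermat.Agent.GAL.EigenChar
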