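import Mathlib

/-!
# Project GAL, eigen-characters: commutative algebra (Nakayama)
-/

set_option autoImplicit false

namespace Fermat.Agent.GAL.EigenChar

/-- the kernel of a ring hom from a `ℤ`-finite ring to a field of positive characteristic is
maximal. -/
theorem isMaximal_ker_of_finite {R k : Type*} [CommRing R] [Module.Finite ℤ R] [Field k]
    (p : ℕ) [hp : Fact p.Prime] [CharP k p] (θ : R →+* k) : (RingHom.ker θ).IsMaximal := by
  have hprime : (RingHom.ker θ).IsPrime := RingHom.ker_isPrime θ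
  have hpmem : (p : R) ∈ RingHom.ker θ := by
    rw [RingHom.mem_ker, map_natCast, CharP.cast_eq_zero]
  -- the quotient is finite
  have hfin : Finite (R ⧸ RingHom.ker θ) := by
    have h1 : Module.Finite ℤ (R ⧸ RingHom.ker θ) :=
      Module.Finite.of_surjective (Ideal.Quotient.mkₐ ℤ (RingHom.ker θ)).toLinearMap
        Ideal.Quotient.mk_surjective
    have h2 : ∀ x : R ⧸ RingHom.ker θ, (p : ℤ) • x = 0 := by
      intro x
      obtain ⟨r, rfl⟩ := Ideal.Quotient.mk_surjective x
      rw [← map_zsmul, Ideal.Quotient.eq_zero_iff_mem]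
      have : (p : ℤ) • r = (p : R) * r := by simp
      rw [this]
      exact Ideal.mul_mem_right _ _ hpmem
    let _ : Module (ZMod p) (R ⧸ RingHom.ker θ) :=
      AddCommGroup.zmodModule (n := p) (fun x => by simpa using h2 x)
    have h3 : Module.Finite (ZMod p) (R ⧸ RingHom.ker θ) := by
      obtain ⟨s, hs⟩ := h1.fg_top
      refine ⟨⟨s, ?_⟩⟩
      refine Submodule.eq_top_iff'.mpr fun x => ?_
      have hx : x ∈ Submodule.span ℤ (s : Set (R ⧸ RingHom.ker θ)) := by rw [hs]; trivial
      induction hx using Submodule.span_induction with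
      | mem y hy => exact Submodule.subset_span hy
      | zero => exact Submodule.zero_mem _
      | add y z _ _ hy hz => exact Submodule.add_mem _ hy hz
      | smul a y _ hy =>
        have : a • y = (a : ZMod p) • y := by
          rw [Int.cast_smul_eq_zsmul]
        rw [this]
        exact Submodule.smul_mem _ _ hy
    exact @Module.finite_of_finite (ZMod p) (R ⧸ RingHom.ker θ) _ _ _ _ h3
  exact Ideal.Quotient.maximal_of_isField _ (Finite.isField_of_domain _)

/-- **Nakayama**: `I M ≠ M` for a proper ideal `I` and a faithful finite module `M`. -/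
theorem smul_top_ne_top_of_faithful {R M : Type*} [CommRing R] [AddCommGroup M] [Module R M]
    [Module.Finite R M] (I : Ideal R) (hI : I ≠ ⊤)
    (hfaith : ∀ r : R, (∀ m : M, r • m = 0) → r = 0) :
    (I • (⊤ : Submodule R M)) ≠ ⊤ := by
  intro htop
  obtain ⟨r, hr1, hr0⟩ := Submodule.exists_sub_one_mem_and_smul_eq_zero_of_fg_of_le_smul I
    (⊤ : Submodule R M) Module.Finite.fg_top (by rw [htop])
  have : r = 0 := hfaith r fun m => hr0 m trivial
  rw [this, zero_sub, neg_mem_iff] at hr1
  exact hI ((Ideal.eq_top_iff_one _).mpr hr1)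

/-- **Nakayama**: a faithful finite module has an eigen-functional for every residue character. -/
theorem exists_eigen_functional {R M k : Type*} [CommRing R] [AddCommGroup M] [Module R M]
    [Module.Finite R M] [Field k] (θ : R →+* k) (hmax : (RingHom.ker θ).IsMaximal)
    (hfaith : ∀ r : R, (∀ m : M, r • m = 0) → r = 0) :
    ∃ ψ : M →+ k, ψ ≠ 0 ∧ ∀ (r : R) (m : M), ψ (r • m) = θ r * ψ m := by
  classical
  set I := RingHom.ker θ with hI
  have hne : (I • (⊤ : Submodule R M)) ≠ ⊤ := smul_top_ne_top_of_faithful I hmax.ne_top hfaith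
  let _ : Field (R ⧸ I) := Ideal.Quotient.field I
  set Q := M ⧸ (I • (⊤ : Submodule R M)) with hQ
  have hQnt : Nontrivial Q := Submodule.Quotient.nontrivial_iff.mpr hne
  obtain ⟨x, hx⟩ := exists_ne (0 : Q)
  obtain ⟨f, hf⟩ : ∃ f : Module.Dual (R ⧸ I) Q, f x ≠ 0 := by
    by_contra hcon
    push Not at hcon
    exact hx ((Module.forall_dual_apply_eq_zero_iff (R ⧸ I) x).mp hcon)
  let ι : (R ⧸ I) →+* k := RingHom.kerLift θ
  refine ⟨(ι : (R ⧸ I) →+ k).comp ((f : Q →+ (R ⧸ I)).comp
    ((I • (⊤ : Submodule R M)).mkQ : M →+ Q)), ?_, ?_⟩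
  · intro h0
    obtain ⟨m, rfl⟩ := Submodule.mkQ_surjective _ x
    have := DFunLike.congr_fun h0 m
    simp only [AddMonoidHom.comp_apply, AddMonoidHom.zero_apply] at this
    exact hf ((RingHom.kerLift_injective θ) (by simpa using this))
  · intro r m
    have h1 : (I • (⊤ : Submodule R M)).mkQ (r • m) =
        (Ideal.Quotient.mk I r) • ((I • (⊤ : Submodule R M)).mkQ m) := rfl
    have h2 : f ((I • (⊤ : Submodule R M)).mkQ (r • m)) =
        (Ideal.Quotient.mk I r) * f ((I • (⊤ : Submodule R M)).mkQ m) := by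
      rw [h1, map_smul, smul_eq_mul]
    change ι (f ((I • (⊤ : Submodule R M)).mkQ (r • m))) =
      θ r * ι (f ((I • (⊤ : Submodule R M)).mkQ m))
    rw [h2, map_mul]
    rfl

/-- **Nakayama**, `𝔽_p`-valued version: a faithful finite module has a nonzero `𝔽_p`-valued
functional killed by a given proper ideal containing `p`. -/
theorem exists_functional_killed {R M : Type*} [CommRing R] [AddCommGroup M] [Module R M]
    [Module.Finite R M] (p : ℕ) [hp : Fact p.Prime] (I : Ideal R) (hI : I ≠ ⊤)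
    (hpI : (p : R) ∈ I) (hfaith : ∀ r : R, (∀ m : M, r • m = 0) → r = 0) :
    ∃ ψ : M →+ ZMod p, ψ ≠ 0 ∧ ∀ r ∈ I, ∀ m : M, ψ (r • m) = 0 := by
  classical
  have hne : (I • (⊤ : Submodule R M)) ≠ ⊤ := smul_top_ne_top_of_faithful I hI hfaith
  set Q := M ⧸ (I • (⊤ : Submodule R M)) with hQ
  have hQnt : Nontrivial Q := Submodule.Quotient.nontrivial_iff.mpr hne
  have hkill : ∀ r ∈ I, ∀ m : M, (I • (⊤ : Submodule R M)).mkQ (r • m) = 0 := by
    intro r hr m
    rw [Submodule.mkQ_apply, Submodule.Quotient.mk_eq_zero]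
    exact Submodule.smul_mem_smul hr trivial
  have hpQ : ∀ x : Q, p • x = 0 := by
    intro x
    obtain ⟨m, rfl⟩ := Submodule.mkQ_surjective _ x
    rw [← map_nsmul, ← Nat.cast_smul_eq_nsmul R]
    exact hkill _ hpI m
  let _ : Module (ZMod p) Q := AddCommGroup.zmodModule (n := p) hpQ
  obtain ⟨x, hx⟩ := exists_ne (0 : Q)
  obtain ⟨f, hf⟩ : ∃ f : Module.Dual (ZMod p) Q, f x ≠ 0 := by
    by_contra hcon
    push Not at hcon
    exact hx ((Module.forall_dual_apply_eq_zero_iff (ZMod p) x).mp hcon)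
  refine ⟨(f : Q →+ ZMod p).comp ((I • (⊤ : Submodule R M)).mkQ : M →+ Q), ?_, ?_⟩
  · intro h0
    obtain ⟨m, rfl⟩ := Submodule.mkQ_surjective _ x
    exact hf (DFunLike.congr_fun h0 m)
  · intro r hr m
    change f ((I • (⊤ : Submodule R M)).mkQ (r • m)) = 0
    rw [hkill r hr m, map_zero]

end Fermat.Agent.GAL.EigenChar
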