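import Mathlib
import Fermat.Agent.S21.Injective
import Fermat.Agent.S16.CohPeriod
import Fermat.Agent.S22.Alg
import Fermat.Agent.S22.Lattice
import Fermat.Prelude.Def_CuspForm_HeckeEvalForms

/-!
# Project GAL, eigen-characters: the period lattice of `Γ₀(N)` as a Hecke module
-/

set_option autoImplicit false

open UpperHalfPlane hiding I
open CongruenceSubgroup ModularCurve ModularCurve.Period ModularForm
open scoped MatrixGroups ModularForm
open Matrix.SpecialLinearGroup (mapGL)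
open P2MW.S_ModularForm_heckeT_slash_eq_self_of_mem_Gamma0.ModularForm.HeckeSlashInvariance

namespace Fermat.Agent.GAL.EigenChar

noncomputable section

variable (N : ℕ) [NeZero N]

/-- The period homomorphism `Γ₀(N) → S₂(Γ₀(N))^∨`. -/
def perHom : Additive (Gamma0 N) →+ Module.Dual ℂ (CuspForm (Gamma0 N) 2) where
  toFun γ :=
    { toFun := fun f => periodMap N f γ
      map_add' := fun f g => DFunLike.congr_fun ((S21.periodMapLin N).map_add f g) γ
      map_smul' := fun c f => DFunLike.congr_fun ((S21.periodMapLin N).map_smul c f) γ }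
  map_zero' := LinearMap.ext fun f => map_zero (periodMap N f)
  map_add' γ δ := LinearMap.ext fun f => map_add (periodMap N f) γ δ

variable {N}

/-- The period functional of `γ ∈ Γ₀(N)`. -/
def per (γ : Gamma0 N) : Module.Dual ℂ (CuspForm (Gamma0 N) 2) := perHom N (Additive.ofMul γ)

theorem per_apply (γ : Gamma0 N) (f : CuspForm (Gamma0 N) 2) :
    per γ f = periodMap N f (Additive.ofMul γ) := rfl

theorem per_mul (γ δ : Gamma0 N) : per (γ * δ) = per γ + per δ := by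
  unfold per
  rw [ofMul_mul, map_add]

@[simp] theorem per_one : per (1 : Gamma0 N) = 0 := by
  unfold per
  rw [ofMul_one, map_zero]

theorem per_inv (γ : Gamma0 N) : per γ⁻¹ = -per γ := by
  unfold per
  rw [ofMul_inv, map_neg]

theorem per_pow (γ : Gamma0 N) (n : ℕ) : per (γ ^ n) = n • per γ := by
  unfold per
  rw [ofMul_pow, map_nsmul]

theorem per_eq_zero_of_pow {γ : Gamma0 N} {n : ℕ} (hn : n ≠ 0) (h : per (γ ^ n) = 0) :
    per γ = 0 := by
  rw [per_pow] at h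
  have : IsAddTorsionFree (Module.Dual ℂ (CuspForm (Gamma0 N) 2)) := .of_isTorsionFree ℂ _
  exact (nsmul_eq_zero_iff_right hn).mp h

/-- Parabolic elements (and `± 1`) have no periods. -/
theorem per_eq_zero_of_trace {γ : Gamma0 N}
    (h : ((γ : SL(2, ℤ)) : Matrix (Fin 2) (Fin 2) ℤ).trace ^ 2 = 4) : per γ = 0 := by
  ext f
  exact S21.periodMap_mem_parabolicHoms N f γ h

/-- Elements of finite order have no periods. -/
theorem per_eq_zero_of_isOfFinOrder {γ : Gamma0 N} (h : IsOfFinOrder γ) : per γ = 0 := by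
  obtain ⟨n, hn, h1⟩ := isOfFinOrder_iff_pow_eq_one.mp h
  exact per_eq_zero_of_pow hn.ne' (by rw [h1, per_one])

/-- The periods separate cusp forms. -/
theorem eq_zero_of_per {f : CuspForm (Gamma0 N) 2} (h : ∀ γ : Gamma0 N, per γ f = 0) : f = 0 := by
  have h0 : periodMap N f = 0 := by
    refine AddMonoidHom.ext fun γ => ?_
    exact h (Additive.toMul γ)
  have h1 : periodHomPair N (f, 0) = periodHomPair N (0, 0) := by
    have h00 : periodMap N (0 : CuspForm (Gamma0 N) 2) = 0 := (S21.periodMapLin N).map_zero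
    rw [S21.periodHomPair_eq]
    simp [h0, h00]
  exact congrArg Prod.fst (S21.periodHomPair_injective N h1)

/-- Transfer formula for `T_ℓ`. -/
theorem per_comp_heckeT {ℓ : ℕ} (hℓ : ℓ.Prime) (hℓN : ¬ ℓ ∣ N) (γ : Gamma0 N)
    (σ : Equiv.Perm (OnePoint (ZMod ℓ))) (c : OnePoint (ZMod ℓ) → Gamma0 N)
    (h : ∀ x : OnePoint (ZMod ℓ), heckeRep ℓ x * mapGL ℝ (γ : SL(2, ℤ)) =
      mapGL ℝ (c x : SL(2, ℤ)) * heckeRep ℓ (σ x)) :
    haveI : NeZero ℓ := ⟨hℓ.ne_zero⟩
    per γ ∘ₗ CuspForm.heckeTLin 2 hℓ hℓN = ∑ x, per (c x) := by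
  have : NeZero ℓ := ⟨hℓ.ne_zero⟩
  ext f
  rw [LinearMap.comp_apply, per_apply, LinearMap.sum_apply]
  exact S16.period_formula (fun x : OnePoint (ZMod ℓ) => heckeRep ℓ x) f _
    (S16.prim_heckeT hℓ hℓN f) γ σ c h

/-- Transfer formula for `U_q`. -/
theorem per_comp_heckeU {q : ℕ} [NeZero q] (hqN : q ∣ N) (γ : Gamma0 N)
    (σ : Equiv.Perm (ZMod q)) (c : ZMod q → Gamma0 N)
    (h : ∀ x : ZMod q, heckeMatrix q x.val * mapGL ℝ (γ : SL(2, ℤ)) =
      mapGL ℝ (c x : SL(2, ℤ)) * heckeMatrix q (σ x).val) :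
    per γ ∘ₗ CuspForm.heckeULin 2 hqN = ∑ x, per (c x) := by
  ext f
  rw [LinearMap.comp_apply, per_apply, LinearMap.sum_apply]
  exact S16.period_formula (fun x : ZMod q => heckeMatrix q x.val) f _
    (S16.prim_heckeU hqN f) γ σ c h

omit [NeZero N] in
theorem dvd_of_mem_Gamma0 (γ : Gamma0 N) : (N : ℤ) ∣ (γ : SL(2, ℤ)) 1 0 :=
  (ZMod.intCast_zmod_eq_zero_iff_dvd _ _).mp (Gamma0_mem.mp γ.2)

omit [NeZero N] in
/-- Existence of transfer data for `T_ℓ`. -/
theorem exists_transfer_T {ℓ : ℕ} (hℓ : ℓ.Prime) (hℓN : ¬ ℓ ∣ N) (γ : Gamma0 N) :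
    ∃ (σ : Equiv.Perm (OnePoint (ZMod ℓ))) (c : OnePoint (ZMod ℓ) → Gamma0 N),
      ∀ x : OnePoint (ZMod ℓ), heckeRep ℓ x * mapGL ℝ (γ : SL(2, ℤ)) =
        mapGL ℝ (c x : SL(2, ℤ)) * heckeRep ℓ (σ x) := by
  have : Fact ℓ.Prime := ⟨hℓ⟩
  choose g' hg' hmul using fun x => heckeRep_mul hℓN (γ : SL(2, ℤ)) (dvd_of_mem_Gamma0 γ) x
  exact ⟨MulAction.toPerm (redMatrix ℓ (γ : SL(2, ℤ))),
    fun x => ⟨g' x, Gamma0_mem.mpr ((ZMod.intCast_zmod_eq_zero_iff_dvd _ _).mpr (hg' x))⟩, hmul⟩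

omit [NeZero N] in
/-- Existence of transfer data for `U_q`. -/
theorem exists_transfer_U {q : ℕ} [NeZero q] (hqN : q ∣ N) (γ : Gamma0 N) :
    ∃ (σ : Equiv.Perm (ZMod q)) (c : ZMod q → Gamma0 N),
      ∀ x : ZMod q, heckeMatrix q x.val * mapGL ℝ (γ : SL(2, ℤ)) =
        mapGL ℝ (c x : SL(2, ℤ)) * heckeMatrix q (σ x).val := by
  have hc : (q : ℤ) ∣ (γ : SL(2, ℤ)) 1 0 :=
    (Int.natCast_dvd_natCast.mpr hqN).trans (dvd_of_mem_Gamma0 γ)
  choose g' hg' hmul using fun x => heckeMatrix_mul_of_dvd (γ : SL(2, ℤ)) hc x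
  refine ⟨affinePerm (γ : SL(2, ℤ)) ((ZMod.intCast_zmod_eq_zero_iff_dvd _ _).mpr hc),
    fun x => ⟨g' x, ?_⟩, hmul⟩
  rw [Gamma0_mem, hg']
  push_cast
  rw [Gamma0_mem.mp γ.2, mul_zero]

variable (N)

/-- The period lattice: the image of `Γ₀(N)` in `S₂(Γ₀(N))^∨`. -/
def perLat : Submodule ℤ (Module.Dual ℂ (CuspForm (Gamma0 N) 2)) :=
  (perHom N).range.toIntSubmodule

variable {N}

theorem per_mem (γ : Gamma0 N) : per γ ∈ perLat N := ⟨Additive.ofMul γ, rfl⟩

theorem exists_per_eq {l : Module.Dual ℂ (CuspForm (Gamma0 N) 2)} (hl : l ∈ perLat N) :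
    ∃ γ : Gamma0 N, per γ = l := by
  obtain ⟨γ, rfl⟩ := hl
  exact ⟨Additive.toMul γ, rfl⟩

theorem perLat_fg : (perLat N).FG := by
  have := S22.group_fg_SL2Z
  have hfg : Group.FG (Gamma0 N) := Subgroup.fg_of_index_ne_zero _
  obtain ⟨S, hS, hSfin⟩ := Group.fg_iff.mp hfg
  refine ⟨(hSfin.image per).toFinset, le_antisymm ?_ ?_⟩
  · refine Submodule.span_le.mpr ?_
    intro l hl
    simp only [Set.Finite.coe_toFinset, Set.mem_image] at hl
    obtain ⟨γ, -, rfl⟩ := hl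
    exact per_mem γ
  · intro l hl
    obtain ⟨γ, rfl⟩ := exists_per_eq hl
    set L0 := Submodule.span ℤ ((hSfin.image per).toFinset :
      Set (Module.Dual ℂ (CuspForm (Gamma0 N) 2))) with hL0
    have hγ : γ ∈ Subgroup.closure S := by rw [hS]; trivial
    induction hγ using Subgroup.closure_induction with
    | mem x hx =>
      refine Submodule.subset_span ?_
      rw [Set.Finite.coe_toFinset]
      exact ⟨x, hx, rfl⟩
    | one => rw [per_one]; exact L0.zero_mem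
    | mul x y _ _ hx hy => rw [per_mul]; exact L0.add_mem (hx (per_mem _)) (hy (per_mem _))
    | inv x _ hx => rw [per_inv]; exact L0.neg_mem (hx (per_mem _))

instance : Module.Finite ℤ (perLat N) := Module.Finite.iff_fg.mpr perLat_fg

theorem comp_heckeT_mem {ℓ : ℕ} (hℓ : ℓ.Prime) (hℓN : ¬ ℓ ∣ N)
    {l : Module.Dual ℂ (CuspForm (Gamma0 N) 2)} (hl : l ∈ perLat N) :
    l ∘ₗ CuspForm.heckeTLin 2 hℓ hℓN ∈ perLat N := by
  obtain ⟨γ, rfl⟩ := exists_per_eq hl
  obtain ⟨σ, c, h⟩ := exists_transfer_T hℓ hℓN γ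
  rw [per_comp_heckeT hℓ hℓN γ σ c h]
  exact Submodule.sum_mem _ fun x _ => per_mem _

theorem comp_heckeU_mem {q : ℕ} (hq : q.Prime) (hqN : q ∣ N)
    {l : Module.Dual ℂ (CuspForm (Gamma0 N) 2)} (hl : l ∈ perLat N) :
    l ∘ₗ CuspForm.heckeULin 2 hqN ∈ perLat N := by
  have : NeZero q := ⟨hq.ne_zero⟩
  obtain ⟨γ, rfl⟩ := exists_per_eq hl
  obtain ⟨σ, c, h⟩ := exists_transfer_U hqN γ
  rw [per_comp_heckeU hqN γ σ c h]
  exact Submodule.sum_mem _ fun x _ => per_mem _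

theorem comp_mem_of_mem_heckeAlgebra {S : Set ℕ}
    {t : Module.End ℂ (CuspForm (Gamma0 N) 2)} (ht : t ∈ CuspForm.heckeAlgebra N 2 S)
    {l : Module.Dual ℂ (CuspForm (Gamma0 N) 2)} (hl : l ∈ perLat N) : l ∘ₗ t ∈ perLat N := by
  refine S22.comp_mem_of_mem_adjoin (CuspForm.heckeGenerators N 2 S) (perLat N) ?_ ht l hl
  intro g hg l hl
  rcases hg with ⟨ℓ, hℓ, hℓN, -, rfl⟩ | ⟨q, hqN, hq, -, rfl⟩
  · exact comp_heckeT_mem hℓ hℓN hl
  · exact comp_heckeU_mem hq hqN hl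

variable (N)

/-- The action of the Hecke algebra on the period lattice. -/
def latAct (S : Set ℕ) : CuspForm.heckeAlgebra N 2 S →+* Module.End ℤ (perLat N) where
  toFun t :=
    { toFun := fun l => ⟨l.1 ∘ₗ t.1, comp_mem_of_mem_heckeAlgebra t.2 l.2⟩
      map_add' := fun a b => Subtype.ext (by simp [LinearMap.add_comp])
      map_smul' := fun r a => Subtype.ext (by simp [LinearMap.smul_comp]) }
  map_one' := by
    ext l : 2
    rfl
  map_mul' a b := by
    ext l : 2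
    rw [mul_comm a b]
    rfl
  map_zero' := by
    ext l : 2
    simp
  map_add' a b := by
    ext l : 2
    simp [LinearMap.comp_add]

variable {N}

@[simp] theorem coe_latAct_apply (S : Set ℕ) (t : CuspForm.heckeAlgebra N 2 S) (l : perLat N) :
    ((latAct N S t l : perLat N) : Module.Dual ℂ (CuspForm (Gamma0 N) 2)) = l.1 ∘ₗ t.1 := rfl

theorem latAct_faithful (S : Set ℕ) (t : CuspForm.heckeAlgebra N 2 S)
    (h : ∀ l : perLat N, latAct N S t l = 0) : t = 0 := by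
  apply Subtype.ext
  refine LinearMap.ext fun f => eq_zero_of_per fun γ => ?_
  have := congrArg Subtype.val (h ⟨per γ, per_mem γ⟩)
  exact LinearMap.congr_fun this f

end

end Fermat.Agent.GAL.EigenChar
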