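import Fermat.Agent.GAL.EigenChar.Alg
import Fermat.Agent.GAL.EigenChar.Per
import Fermat.Agent.GAL.EigenChar.Eigen

/-!
# Project GAL, eigen-characters: main results

`PerChar N A` is the group of characters `Γ₀(N) → A` factoring through the period lattice, as a
module over the abstract Hecke algebra `HeckeAlg`; the action of the generators is given by the
explicit transfer formulas.  A normalised eigenform gives a nonzero `𝔽_p`-valued character killed
by its eigen-ideal.
-/

set_option autoImplicit false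

open CongruenceSubgroup ModularCurve ModularForm
open scoped MatrixGroups
open Matrix.SpecialLinearGroup (mapGL)
open P2MW.S_ModularForm_heckeT_slash_eq_self_of_mem_Gamma0.ModularForm.HeckeSlashInvariance

namespace Fermat.Agent.GAL.EigenChar

noncomputable section

section General

/-- An additive map commuting with the generators of the abstract Hecke algebra is linear. -/
theorem map_smul_of_heckeGen {X J : Type*} [AddCommGroup X] [Module HeckeAlg X] [AddCommGroup J]
    [Module HeckeAlg J] (D : X →+ J) (h : ∀ ℓ x, D (heckeGen ℓ • x) = heckeGen ℓ • D x)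
    (t : HeckeAlg) (x : X) : D (t • x) = t • D x := by
  induction t using MvPolynomial.induction_on generalizing x with
  | C a =>
    rw [← MvPolynomial.algebraMap_eq, algebraMap_smul, algebraMap_smul, map_zsmul]
  | add s t hs ht => rw [add_smul, add_smul, map_add, hs, ht]
  | mul_X s ℓ hs =>
    rw [mul_smul, mul_smul, hs]
    exact congrArg _ (h ℓ x)

theorem map_mem_heckeTorsion {X J : Type*} [AddCommGroup X] [Module HeckeAlg X] [AddCommGroup J]
    [Module HeckeAlg J] (D : X →+ J) (h : ∀ ℓ x, D (heckeGen ℓ • x) = heckeGen ℓ • D x)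
    {𝔪 : Ideal HeckeAlg} {x : X} (hx : x ∈ heckeTorsion X 𝔪) : D x ∈ heckeTorsion J 𝔪 := by
  rw [mem_heckeTorsion_iff] at hx ⊢
  intro t ht
  rw [← map_smul_of_heckeGen D h, hx t ht, map_zero]

end General

variable (N : ℕ) [NeZero N]

/-- The action of the abstract Hecke algebra on the period lattice. -/
def heckeLat : HeckeAlg →+* Module.End ℤ (perLat N) :=
  (latAct N ∅).comp (CuspForm.heckeEvalForms N 2)

variable {N}

/-- The class of `γ` in the period lattice. -/
def perL (γ : Gamma0 N) : perLat N := ⟨per γ, per_mem γ⟩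

theorem perL_surjective : Function.Surjective (perL (N := N)) := by
  rintro ⟨l, hl⟩
  obtain ⟨γ, rfl⟩ := exists_per_eq hl
  exact ⟨γ, rfl⟩

theorem perL_mul (γ δ : Gamma0 N) : perL (γ * δ) = perL γ + perL δ := Subtype.ext (per_mul γ δ)

@[simp] theorem perL_one : perL (1 : Gamma0 N) = 0 := Subtype.ext per_one

theorem perL_inv (γ : Gamma0 N) : perL γ⁻¹ = -perL γ := Subtype.ext (per_inv γ)

theorem perL_eq_zero_of_trace {γ : Gamma0 N}
    (h : ((γ : SL(2, ℤ)) : Matrix (Fin 2) (Fin 2) ℤ).trace ^ 2 = 4) : perL γ = 0 :=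
  Subtype.ext (per_eq_zero_of_trace h)

theorem perL_eq_zero_of_isOfFinOrder {γ : Gamma0 N} (h : IsOfFinOrder γ) : perL γ = 0 :=
  Subtype.ext (per_eq_zero_of_isOfFinOrder h)

theorem heckeLat_heckeGen_of_not_dvd {ℓ : Nat.Primes} (hℓN : ¬ (ℓ : ℕ) ∣ N) (γ : Gamma0 N)
    (σ : Equiv.Perm (OnePoint (ZMod ℓ))) (c : OnePoint (ZMod ℓ) → Gamma0 N)
    (h : ∀ x : OnePoint (ZMod ℓ), heckeRep ℓ x * mapGL ℝ (γ : SL(2, ℤ)) =
      mapGL ℝ (c x : SL(2, ℤ)) * heckeRep ℓ (σ x)) :
    haveI : NeZero (ℓ : ℕ) := ⟨ℓ.2.ne_zero⟩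
    heckeLat N (heckeGen ℓ) (perL γ) = ∑ x, perL (c x) := by
  have : NeZero (ℓ : ℕ) := ⟨ℓ.2.ne_zero⟩
  apply Subtype.ext
  rw [AddSubmonoidClass.coe_finsetSum]
  change (latAct N ∅ (CuspForm.heckeEvalForms N 2 (heckeGen ℓ)) (perL γ)).1 = _
  rw [CuspForm.heckeEvalForms_heckeGen_of_not_dvd hℓN, coe_latAct_apply]
  exact per_comp_heckeT ℓ.2 hℓN γ σ c h

theorem heckeLat_heckeGen_of_dvd {q : Nat.Primes} (hqN : (q : ℕ) ∣ N) (γ : Gamma0 N)
    (σ : Equiv.Perm (ZMod q)) (c : ZMod q → Gamma0 N)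
    (h : ∀ x : ZMod q, heckeMatrix q x.val * mapGL ℝ (γ : SL(2, ℤ)) =
      mapGL ℝ (c x : SL(2, ℤ)) * heckeMatrix q (σ x).val) :
    haveI : NeZero (q : ℕ) := ⟨q.2.ne_zero⟩
    heckeLat N (heckeGen q) (perL γ) = ∑ x, perL (c x) := by
  have : NeZero (q : ℕ) := ⟨q.2.ne_zero⟩
  apply Subtype.ext
  rw [AddSubmonoidClass.coe_finsetSum]
  change (latAct N ∅ (CuspForm.heckeEvalForms N 2 (heckeGen q)) (perL γ)).1 = _
  rw [CuspForm.heckeEvalForms_heckeGen_of_dvd hqN, coe_latAct_apply]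
  exact per_comp_heckeU hqN γ σ c h

variable (N)

/-- Characters of `Γ₀(N)` with values in `A` factoring through the period lattice. -/
def PerChar (A : Type*) [AddCommGroup A] : Type _ := perLat N →+ A

variable {N} {A : Type*} [AddCommGroup A]

instance : AddCommGroup (PerChar N A) := inferInstanceAs (AddCommGroup (perLat N →+ A))

/-- The value of a character at `γ ∈ Γ₀(N)`. -/
def PerChar.eval (ψ : PerChar N A) (γ : Gamma0 N) : A := (show perLat N →+ A from ψ) (perL γ)

/-- Constructor. -/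
def PerChar.mk (ψ : perLat N →+ A) : PerChar N A := ψ

@[simp] theorem PerChar.eval_mk (ψ : perLat N →+ A) (γ : Gamma0 N) :
    (PerChar.mk ψ).eval γ = ψ (perL γ) := rfl

@[ext] theorem PerChar.ext {ψ ψ' : PerChar N A} (h : ∀ γ, ψ.eval γ = ψ'.eval γ) : ψ = ψ' := by
  refine AddMonoidHom.ext fun l => ?_
  obtain ⟨γ, rfl⟩ := perL_surjective l
  exact h γ

@[simp] theorem PerChar.eval_zero (γ : Gamma0 N) : (0 : PerChar N A).eval γ = 0 := rfl

@[simp] theorem PerChar.eval_add (ψ ψ' : PerChar N A) (γ : Gamma0 N) :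
    (ψ + ψ').eval γ = ψ.eval γ + ψ'.eval γ := rfl

@[simp] theorem PerChar.eval_neg (ψ : PerChar N A) (γ : Gamma0 N) :
    (-ψ).eval γ = -ψ.eval γ := rfl

theorem PerChar.eval_mul (ψ : PerChar N A) (γ δ : Gamma0 N) :
    ψ.eval (γ * δ) = ψ.eval γ + ψ.eval δ := by
  unfold PerChar.eval
  rw [perL_mul, map_add]

@[simp] theorem PerChar.eval_one (ψ : PerChar N A) : ψ.eval 1 = 0 := by
  unfold PerChar.eval
  rw [perL_one, map_zero]

theorem PerChar.eval_inv (ψ : PerChar N A) (γ : Gamma0 N) : ψ.eval γ⁻¹ = -ψ.eval γ := by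
  unfold PerChar.eval
  rw [perL_inv, map_neg]

/-- The characters vanish on parabolic elements (and on `± 1`). -/
theorem PerChar.eval_eq_zero_of_trace (ψ : PerChar N A) {γ : Gamma0 N}
    (h : ((γ : SL(2, ℤ)) : Matrix (Fin 2) (Fin 2) ℤ).trace ^ 2 = 4) : ψ.eval γ = 0 := by
  unfold PerChar.eval
  rw [perL_eq_zero_of_trace h, map_zero]

/-- The characters vanish on elements of finite order. -/
theorem PerChar.eval_eq_zero_of_isOfFinOrder (ψ : PerChar N A) {γ : Gamma0 N}
    (h : IsOfFinOrder γ) : ψ.eval γ = 0 := by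
  unfold PerChar.eval
  rw [perL_eq_zero_of_isOfFinOrder h, map_zero]

/-- The underlying homomorphism `Γ₀(N) → A`. -/
def PerChar.toHom : PerChar N A →+ (Additive (Gamma0 N) →+ A) where
  toFun ψ :=
    { toFun := fun γ => ψ.eval (Additive.toMul γ)
      map_zero' := ψ.eval_one
      map_add' := fun _ _ => ψ.eval_mul _ _ }
  map_zero' := rfl
  map_add' _ _ := rfl

@[simp] theorem PerChar.toHom_apply (ψ : PerChar N A) (γ : Gamma0 N) :
    PerChar.toHom ψ (Additive.ofMul γ) = ψ.eval γ := rfl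

theorem PerChar.toHom_injective : Function.Injective (PerChar.toHom (N := N) (A := A)) := by
  intro ψ ψ' h
  ext γ
  exact DFunLike.congr_fun h (Additive.ofMul γ)

instance : Module HeckeAlg (PerChar N A) where
  smul t ψ := (show perLat N →+ A from ψ).comp (heckeLat N t).toAddMonoidHom
  one_smul ψ := by
    refine AddMonoidHom.ext fun l => ?_
    change (show perLat N →+ A from ψ) (heckeLat N 1 l) = _
    rw [map_one]
    rfl
  mul_smul s t ψ := by
    refine AddMonoidHom.ext fun l => ?_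
    change (show perLat N →+ A from ψ) (heckeLat N (s * t) l) =
      (show perLat N →+ A from ψ) (heckeLat N t (heckeLat N s l))
    rw [mul_comm s t, map_mul]
    rfl
  smul_zero t := rfl
  smul_add t ψ ψ' := rfl
  add_smul s t ψ := by
    refine AddMonoidHom.ext fun l => ?_
    change (show perLat N →+ A from ψ) (heckeLat N (s + t) l) =
      (show perLat N →+ A from ψ) (heckeLat N s l) + (show perLat N →+ A from ψ) (heckeLat N t l)
    rw [map_add, LinearMap.add_apply, map_add]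
  zero_smul ψ := by
    refine AddMonoidHom.ext fun l => ?_
    change (show perLat N →+ A from ψ) (heckeLat N 0 l) = _
    rw [map_zero, LinearMap.zero_apply, map_zero]
    rfl

theorem PerChar.smul_apply (t : HeckeAlg) (ψ : PerChar N A) (l : perLat N) :
    (show perLat N →+ A from t • ψ) l = (show perLat N →+ A from ψ) (heckeLat N t l) := rfl

/-- **Transfer formula** for `T_ℓ`, `ℓ ∤ N`. -/
theorem PerChar.heckeGen_smul_eval_of_not_dvd {ℓ : Nat.Primes} (hℓN : ¬ (ℓ : ℕ) ∣ N)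
    (ψ : PerChar N A) (γ : Gamma0 N)
    (σ : Equiv.Perm (OnePoint (ZMod ℓ))) (c : OnePoint (ZMod ℓ) → Gamma0 N)
    (h : ∀ x : OnePoint (ZMod ℓ), heckeRep ℓ x * mapGL ℝ (γ : SL(2, ℤ)) =
      mapGL ℝ (c x : SL(2, ℤ)) * heckeRep ℓ (σ x)) :
    haveI : NeZero (ℓ : ℕ) := ⟨ℓ.2.ne_zero⟩
    (heckeGen ℓ • ψ).eval γ = ∑ x, ψ.eval (c x) := by
  have : NeZero (ℓ : ℕ) := ⟨ℓ.2.ne_zero⟩
  change (show perLat N →+ A from ψ) (heckeLat N (heckeGen ℓ) (perL γ)) = _
  rw [heckeLat_heckeGen_of_not_dvd hℓN γ σ c h, map_sum]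
  rfl

/-- **Transfer formula** for `U_q`, `q ∣ N`. -/
theorem PerChar.heckeGen_smul_eval_of_dvd {q : Nat.Primes} (hqN : (q : ℕ) ∣ N)
    (ψ : PerChar N A) (γ : Gamma0 N)
    (σ : Equiv.Perm (ZMod q)) (c : ZMod q → Gamma0 N)
    (h : ∀ x : ZMod q, heckeMatrix q x.val * mapGL ℝ (γ : SL(2, ℤ)) =
      mapGL ℝ (c x : SL(2, ℤ)) * heckeMatrix q (σ x).val) :
    haveI : NeZero (q : ℕ) := ⟨q.2.ne_zero⟩
    (heckeGen q • ψ).eval γ = ∑ x, ψ.eval (c x) := by
  have : NeZero (q : ℕ) := ⟨q.2.ne_zero⟩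
  change (show perLat N →+ A from ψ) (heckeLat N (heckeGen q) (perL γ)) = _
  rw [heckeLat_heckeGen_of_dvd hqN γ σ c h, map_sum]
  rfl

/-- **Support**, general form: every character `θ` of the Hecke algebra with values in a field of
characteristic `p` occurs in the `𝔽_p`-valued characters of `Γ₀(N)`. -/
theorem exists_functional_of_ringHom {p : ℕ} (hp : p.Prime) {k : Type*} [Field k] [CharP k p]
    {S : Set ℕ} (θ : CuspForm.heckeAlgebra N 2 S →+* k) :
    ∃ ψ : perLat N →+ ZMod p, ψ ≠ 0 ∧ ∀ t, θ t = 0 → ∀ l, ψ (latAct N S t l) = 0 := by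
  have : Fact p.Prime := ⟨hp⟩
  let _ : Module (CuspForm.heckeAlgebra N 2 S) (perLat N) := Module.compHom _ (latAct N S)
  have hfin : Module.Finite (CuspForm.heckeAlgebra N 2 S) (perLat N) :=
    Module.Finite.of_restrictScalars_finite ℤ _ _
  obtain ⟨ψ, hψ, h⟩ := exists_functional_killed (R := CuspForm.heckeAlgebra N 2 S)
    (M := perLat N) p (RingHom.ker θ) (RingHom.ker_ne_top θ)
    (by rw [RingHom.mem_ker, map_natCast, CharP.cast_eq_zero])
    (fun t ht => latAct_faithful S t ht)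
  exact ⟨ψ, hψ, fun t ht l => h t ht l⟩

/-- **Support**: a normalised eigenform gives a nonzero `𝔽_p`-valued character of `Γ₀(N)` killed
by its eigen-ideal. -/
theorem exists_perChar_mem_heckeTorsion {g : CuspForm (Gamma0 N) 2}
    (hg : g.IsNormalizedEigenform) {p : ℕ} (hp : p.Prime) {k : Type*} [Field k] [CharP k p]
    (φ : integralClosure ℤ ℂ →+* k) :
    ∃ ψ : PerChar N (ZMod p), ψ ≠ 0 ∧
      ψ ∈ heckeTorsion (PerChar N (ZMod p)) (eigenIdeal fun ℓ => φ (eigenCoeff hg ℓ)) := by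
  obtain ⟨ψ, hψ, h⟩ := exists_functional_of_ringHom hp (φ.comp (eigenHomInt hg ∅))
  refine ⟨PerChar.mk ψ, hψ, ?_⟩
  rw [mem_heckeTorsion_iff]
  intro t ht
  rw [mem_eigenIdeal_iff_eigenHomInt] at ht
  refine AddMonoidHom.ext fun l => ?_
  exact h _ ht l

end

end Fermat.Agent.GAL.EigenChar
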